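import Mathlib
import Fermat.Prelude.Def_FLTPrelim_Modularity

/-!
# The Hasse relation on points: definitions (helper40, P-S52 / WP-B)

For a Weierstrass curve `E` over a finite field `F` with `q` elements and a field extension
`k / F`, `frobPt E k : E(k) →+ E(k)` is the `q`-power Frobenius on points,
`(x, y) ↦ (x ^ q, y ^ q)` (an honest additive map: it is Mathlib's `Point.map` of the Frobenius
`F`-algebra endomorphism of `k`).

`hasseOp E k = φ² - a φ + q`, with `a = E.traceOfFrobenius = q + 1 - #E(F)`, is the additive
endomorphism of `E(k)` that the Hasse relation says vanishes (here: up to the factor `2`).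
-/

set_option autoImplicit false

namespace Fermat.Agent.H40

open WeierstrassCurve WeierstrassCurve.Affine

variable {F : Type*} [Field F] [Fintype F] (E : WeierstrassCurve F)
  (k : Type*) [Field k] [DecidableEq k] [Algebra F k]

/-- The `#F`-power Frobenius endomorphism of the group `E(k)`. -/
noncomputable def frobPt : (E⁄k).Point →+ (E⁄k).Point :=
  Point.map (W' := E) (FiniteField.frobeniusAlgHom F k)

@[simp]
lemma frobPt_zero' : frobPt E k 0 = 0 := map_zero _

lemma frobPt_some {x y : k} (h : (E⁄k).Nonsingular x y) :
    ∃ h' : (E⁄k).Nonsingular (x ^ Fintype.card F) (y ^ Fintype.card F),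
      frobPt E k (Point.some x y h) = Point.some (x ^ Fintype.card F) (y ^ Fintype.card F) h' :=
  ⟨_, rfl⟩

/-- The operator `φ² - a φ + q` on `E(k)`, `a = q + 1 - #E(F)`. -/
noncomputable def hasseOp : (E⁄k).Point →+ (E⁄k).Point :=
  (frobPt E k).comp (frobPt E k) - E.traceOfFrobenius • frobPt E k +
    (Fintype.card F : ℤ) • AddMonoidHom.id _

lemma hasseOp_apply (P : (E⁄k).Point) :
    hasseOp E k P = frobPt E k (frobPt E k P) - E.traceOfFrobenius • frobPt E k P +
      (Fintype.card F : ℤ) • P := rfl

/-- Naturality of `frobPt` in the field. -/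
lemma frobPt_map {k' : Type*} [Field k'] [DecidableEq k'] [Algebra F k'] (ψ : k →ₐ[F] k') (P : (E⁄k).Point) :
    frobPt E k' (Point.map (W' := E) ψ P) = Point.map (W' := E) ψ (frobPt E k P) := by
  have key : (FiniteField.frobeniusAlgHom F k').comp ψ =
      ψ.comp (FiniteField.frobeniusAlgHom F k) := by
    ext x
    show (ψ x) ^ Fintype.card F = ψ (x ^ Fintype.card F)
    rw [map_pow]
  unfold frobPt
  rw [Point.map_map, Point.map_map, key]

/-- Naturality of `hasseOp` in the field. -/
lemma hasseOp_map {k' : Type*} [Field k'] [DecidableEq k'] [Algebra F k'] (ψ : k →ₐ[F] k') (P : (E⁄k).Point) :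
    hasseOp E k' (Point.map (W' := E) ψ P) = Point.map (W' := E) ψ (hasseOp E k P) := by
  simp only [hasseOp_apply, frobPt_map, map_add, map_sub, map_zsmul]

/-- The statement of the Hasse relation (up to `2`) for `E` over all field extensions. -/
def HasseRelation : Prop :=
  ∀ (k : Type) [Field k] [DecidableEq k] [Algebra F k] (P : (E⁄k).Point),
    (2 : ℤ) • hasseOp E k P = 0

end Fermat.Agent.H40
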