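import Fermat.Agent.H40.Hasse.Transfer

/-!
# The Hasse relation for reductions of integral Weierstrass models (helper40, P-S52 / WP-B)

`hasseRelation_reductionMod`: for `W : WeierstrassCurve ℤ` and a prime `ℓ ≥ 5` of good reduction,
every point `P` of the reduction of `W` mod `ℓ` over every field `k` of characteristic `ℓ`
satisfies `2 • (φ² P - a_ℓ φ P + ℓ P) = 0`, where `φ` is the `ℓ`-power Frobenius and
`a_ℓ = W.apOfModel ℓ`.
-/

set_option autoImplicit false

namespace Fermat.Agent.H40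

open WeierstrassCurve WeierstrassCurve.Affine

/-- **WP-B, final form.** -/
theorem hasseRelation_reductionMod (W : WeierstrassCurve ℤ) (ℓ : ℕ) [Fact ℓ.Prime]
    (hℓ : 5 ≤ ℓ) (hgood : W.IsGoodPrimeFor ℓ) : HasseRelation (W.reductionMod ℓ) := by
  have hp : ℓ.Prime := Fact.out
  have h2 : (2 : ZMod ℓ) ≠ 0 := by
    intro h
    have : ((2 : ℕ) : ZMod ℓ) = 0 := by exact_mod_cast h
    rw [ZMod.natCast_eq_zero_iff] at this
    have := Nat.le_of_dvd (by norm_num) this
    omega
  have h3 : (3 : ZMod ℓ) ≠ 0 := by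
    intro h
    have : ((3 : ℕ) : ZMod ℓ) = 0 := by exact_mod_cast h
    rw [ZMod.natCast_eq_zero_iff] at this
    have := Nat.le_of_dvd (by norm_num) this
    omega
  have hΔ : (W.reductionMod ℓ).Δ ≠ 0 := by
    rw [WeierstrassCurve.reductionMod, WeierstrassCurve.map_Δ]
    intro h
    apply hgood
    exact (ZMod.intCast_zmod_eq_zero_iff_dvd _ _).mp h
  exact hasseRelation_of_char_ne _ h2 h3 hΔ

/-- Unfolded form of `hasseRelation_reductionMod`. -/
theorem hasse_relation (W : WeierstrassCurve ℤ) (ℓ : ℕ) [Fact ℓ.Prime]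
    (hℓ : 5 ≤ ℓ) (hgood : W.IsGoodPrimeFor ℓ) (k : Type) [Field k] [DecidableEq k]
    [Algebra (ZMod ℓ) k] (P : ((W.reductionMod ℓ)⁄k).Point) :
    (2 : ℤ) • (frobPt (W.reductionMod ℓ) k (frobPt (W.reductionMod ℓ) k P) -
      W.apOfModel ℓ • frobPt (W.reductionMod ℓ) k P + (ℓ : ℤ) • P) = 0 := by
  have h := hasseRelation_reductionMod W ℓ hℓ hgood k P
  rw [hasseOp_apply, ZMod.card] at h
  exact h

end Fermat.Agent.H40
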