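import Fermat.Agent.H40.Hasse.Generic
import Fermat.Agent.H46.VariableChangePoint

/-!
# The Hasse relation for general Weierstrass curves in characteristic `≠ 2, 3`
(helper40, P-S52 / WP-B)

Transfer of `hasseRelation_short` along an admissible change of variables defined over the
finite field.
-/

set_option autoImplicit false

namespace Fermat.Agent.H40

open WeierstrassCurve WeierstrassCurve.Affine Fermat.Agent.H46

section Cast

variable {K : Type*} [Field K] [DecidableEq K]

/-- Transport of points along an equality of curves. -/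
def pointCast {W₁ W₂ : WeierstrassCurve K} (h : W₁ = W₂) :
    W₁.toAffine.Point ≃+ W₂.toAffine.Point :=
  h ▸ AddEquiv.refl _

@[simp]
lemma pointCast_zero {W₁ W₂ : WeierstrassCurve K} (h : W₁ = W₂) :
    pointCast h (0 : W₁.toAffine.Point) = 0 := by
  subst h; rfl

lemma pointCast_some {W₁ W₂ : WeierstrassCurve K} (h : W₁ = W₂) {x y : K}
    (hxy : W₁.toAffine.Nonsingular x y) :
    pointCast h (Point.some x y hxy) = Point.some x y (h ▸ hxy) := by
  subst h; rfl

end Cast

variable {F : Type*} [Field F] [Fintype F] (S : WeierstrassCurve F) (C : VariableChange F)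

section Base

variable (k : Type*) [Field k] [DecidableEq k] [Algebra F k]

/-- The isomorphism `(C • S)(k) ≃ S(k)` induced by a change of variables over `F`. -/
noncomputable def vcBase : ((C • S)⁄k).Point ≃+ (S⁄k).Point :=
  (pointCast (map_variableChange S C (algebraMap F k)).symm).trans
    (vcPointEquiv (C.map (algebraMap F k)) (S.map (algebraMap F k)))

omit [Fintype F] in
lemma vcBase_some {X Y : k} (h : ((C • S)⁄k).Nonsingular X Y) :
    ∃ h', vcBase S C k (Point.some X Y h) =
      Point.some (vcX (C.map (algebraMap F k)) X) (vcY (C.map (algebraMap F k)) X Y) h' := by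
  have h0 : ((C.map (algebraMap F k)) • (S.map (algebraMap F k))).toAffine.Nonsingular X Y :=
    (map_variableChange S C (algebraMap F k)).symm ▸ h
  refine ⟨(vc_nonsingular _ _ X Y).mp h0, ?_⟩
  have e := pointCast_some (map_variableChange S C (algebraMap F k)).symm (x := X) (y := Y)
    (hxy := h)
  exact (congrArg (vcPointEquiv (C.map (algebraMap F k)) (S.map (algebraMap F k))) e).trans rfl

omit [DecidableEq k] in
lemma frob_vcX (X : k) :
    (vcX (C.map (algebraMap F k)) X) ^ Fintype.card F =
      vcX (C.map (algebraMap F k)) (X ^ Fintype.card F) := by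
  have hf : ∀ z : k, z ^ Fintype.card F = FiniteField.frobeniusAlgHom F k z := fun _ => rfl
  simp only [vcX, VariableChange.map_u, VariableChange.map_r, Units.coe_map, MonoidHom.coe_coe]
  rw [hf, hf, map_add, map_mul, map_pow, AlgHom.commutes, AlgHom.commutes]

omit [DecidableEq k] in
lemma frob_vcY (X Y : k) :
    (vcY (C.map (algebraMap F k)) X Y) ^ Fintype.card F =
      vcY (C.map (algebraMap F k)) (X ^ Fintype.card F) (Y ^ Fintype.card F) := by
  have hf : ∀ z : k, z ^ Fintype.card F = FiniteField.frobeniusAlgHom F k z := fun _ => rfl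
  simp only [vcY, VariableChange.map_u, VariableChange.map_s,
    VariableChange.map_t, Units.coe_map, MonoidHom.coe_coe]
  rw [hf, hf, hf]
  simp only [map_add, map_mul, map_pow, AlgHom.commutes]

/-- The change of variables commutes with Frobenius. -/
lemma frobPt_vcBase (P : ((C • S)⁄k).Point) :
    frobPt S k (vcBase S C k P) = vcBase S C k (frobPt (C • S) k P) := by
  rcases P with _ | ⟨X, Y, h⟩
  · rw [show (Point.zero : ((C • S)⁄k).Point) = 0 from rfl]
    simp
  · obtain ⟨h₁, e₁⟩ := vcBase_some S C k h
    obtain ⟨h₂, e₂⟩ := frobPt_some (C • S) k h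
    obtain ⟨h₃, e₃⟩ := vcBase_some S C k h₂
    obtain ⟨h₄, e₄⟩ := frobPt_some S k h₁
    rw [e₁, e₄, e₂, e₃]
    simp only [Point.some.injEq]
    exact ⟨frob_vcX C k X, frob_vcY C k X Y⟩

end Base

omit [Fintype F] in
open scoped Classical in
lemma traceOfFrobenius_variableChange :
    (C • S).traceOfFrobenius = S.traceOfFrobenius := by
  unfold WeierstrassCurve.traceOfFrobenius WeierstrassCurve.card
  rw [Nat.card_congr (vcPointEquiv C S).toEquiv]

/-- Transfer of the Hasse relation along a change of variables. -/
theorem hasseRelation_variableChange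
    (hS : ∀ (k : Type) [Field k] [DecidableEq k] [Algebra F k] (P : (S⁄k).Point),
      (2 : ℤ) • hasseOp S k P = 0) :
    HasseRelation (C • S) := by
  intro k _ _ _ P
  have h1 : vcBase S C k (hasseOp (C • S) k P) = hasseOp S k (vcBase S C k P) := by
    rw [hasseOp_apply, hasseOp_apply, map_add, map_sub, map_zsmul, map_zsmul,
      frobPt_vcBase, frobPt_vcBase, traceOfFrobenius_variableChange]
  apply (vcBase S C k).injective
  rw [map_zsmul, h1, hS k, map_zero]

/-- **The Hasse relation (up to the factor `2`) for every elliptic curve over a finite field of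
characteristic `≠ 2, 3`.** -/
theorem hasseRelation_of_char_ne (E : WeierstrassCurve F) (h2 : (2 : F) ≠ 0) (h3 : (3 : F) ≠ 0)
    (hΔ : E.Δ ≠ 0) : HasseRelation E := by
  let _i2 : Invertible (2 : F) := invertibleOfNonzero h2
  let _i3 : Invertible (3 : F) := invertibleOfNonzero h3
  have : E.IsElliptic := E.isElliptic_iff.mpr (isUnit_iff_ne_zero.mpr hΔ)
  set C₀ := E.toShortNF with hC₀
  set S := C₀ • E with hS
  have hSs : S = shortE S.a₄ S.a₆ := by
    ext
    · exact a₁_of_isShortNF S
    · exact a₂_of_isShortNF S
    · exact a₃_of_isShortNF S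
    · rfl
    · rfl
  have hE : E = C₀⁻¹ • S := by rw [hS, inv_smul_smul]
  have : (shortE S.a₄ S.a₆).IsElliptic := by rw [← hSs]; infer_instance
  rw [hE, hSs]
  exact hasseRelation_variableChange _ _ fun k _ _ _ P => hasseRelation_short S.a₄ S.a₆ h2 k P

end Fermat.Agent.H40
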