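import Fermat.Agent.H40.Hasse.PolyVec

/-!
# The add-sub map doubles the height exactly (helper40, P-S52 / WP-B)

For an elliptic curve `W` over a field `F` and a primitive vector `T : Fin 3 → F[X]`, the image
of `T` under Mathlib's `WeierstrassCurve.addSubMap` (whose coefficients are constants) is again
primitive, of `maxDeg` exactly `2 * maxDeg T`.
-/

set_option autoImplicit false

namespace Fermat.Agent.H40

open Polynomial

variable {F : Type*} [Field F]

/-- Degree bound for the evaluation of a homogeneous form with constant coefficients. -/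
lemma natDegree_mvAeval_le {σ : Type*} [Fintype σ] (p : MvPolynomial σ F) (m : ℕ)
    (hp : p.IsHomogeneous m) (T : σ → F[X]) (D : ℕ) (hT : ∀ i, (T i).natDegree ≤ D) :
    (MvPolynomial.aeval T p).natDegree ≤ m * D := by
  rw [MvPolynomial.aeval_def, MvPolynomial.eval₂_eq']
  apply natDegree_sum_le_of_forall_le
  intro s hs
  have hm : m = ∑ i, s i := by
    rw [hp.degree_eq_sum_deg_support hs]
    exact Finset.sum_subset (Finset.subset_univ _) fun i _ hi => by
      simpa using hi
  calc (algebraMap F F[X] (MvPolynomial.coeff s p) * ∏ i, T i ^ s i).natDegree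
      ≤ (∏ i, T i ^ s i).natDegree := by
        rw [Polynomial.algebraMap_eq]
        exact natDegree_C_mul_le _ _
    _ ≤ ∑ i, (T i ^ s i).natDegree := natDegree_prod_le _ _
    _ ≤ ∑ i, s i * D := Finset.sum_le_sum fun i _ =>
        natDegree_pow_le.trans (Nat.mul_le_mul_left _ (hT i))
    _ = m * D := by rw [← Finset.sum_mul, hm]

section Naturality

variable {R S : Type*} [CommRing R] [CommRing S]

lemma addSubMap_map (W : WeierstrassCurve R) (f : R →+* S) (i : Fin 3) :
    WeierstrassCurve.addSubMap (W.map f) i = MvPolynomial.map f (WeierstrassCurve.addSubMap W i) := by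
  fin_cases i <;>
    simp [WeierstrassCurve.addSubMap, WeierstrassCurve.map_b₂, WeierstrassCurve.map_b₄,
      WeierstrassCurve.map_b₆, WeierstrassCurve.map_b₈, map_ofNat]

set_option maxHeartbeats 4000000 in
lemma addSubMapCoeff_map (W : WeierstrassCurve R) (f : R →+* S) (ij : Fin 3 × Fin 3) :
    WeierstrassCurve.addSubMapCoeff (W.map f) ij =
      MvPolynomial.map f (WeierstrassCurve.addSubMapCoeff W ij) := by
  obtain ⟨i, j⟩ := ij
  fin_cases i <;> fin_cases j <;>
    simp [WeierstrassCurve.addSubMapCoeff, WeierstrassCurve.map_b₂, WeierstrassCurve.map_b₄,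
      WeierstrassCurve.map_b₆, WeierstrassCurve.map_b₈, map_ofNat]

end Naturality

lemma eval_addSubMap_map_C (W : WeierstrassCurve F) (T : Fin 3 → F[X]) (i : Fin 3) :
    MvPolynomial.eval T (WeierstrassCurve.addSubMap (W.map (C : F →+* F[X])) i) =
      MvPolynomial.aeval T (WeierstrassCurve.addSubMap W i) := by
  rw [addSubMap_map, MvPolynomial.eval_map, MvPolynomial.aeval_def, Polynomial.algebraMap_eq]

lemma eval_addSubMapCoeff_map_C (W : WeierstrassCurve F) (T : Fin 3 → F[X])
    (ij : Fin 3 × Fin 3) :
    MvPolynomial.eval T (WeierstrassCurve.addSubMapCoeff (W.map (C : F →+* F[X])) ij) =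
      MvPolynomial.aeval T (WeierstrassCurve.addSubMapCoeff W ij) := by
  rw [addSubMapCoeff_map, MvPolynomial.eval_map, MvPolynomial.aeval_def,
    Polynomial.algebraMap_eq]

/-- **The add-sub map doubles the height exactly.** -/
theorem addSub_prim_maxDeg (W : WeierstrassCurve F) [W.IsElliptic] {T : Fin 3 → F[X]}
    (hT : IsPrimVec T) :
    IsPrimVec (fun i => MvPolynomial.aeval T (WeierstrassCurve.addSubMap W i)) ∧
      maxDeg (fun i => MvPolynomial.aeval T (WeierstrassCurve.addSubMap W i)) =
        2 * maxDeg T := by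
  have hD : ∀ i, (T i).natDegree ≤ maxDeg T := natDegree_le_maxDeg T
  refine certificate_lemma hT 2 4 (by norm_num) ?_
    (fun i j => MvPolynomial.eval T
      (MvPolynomial.C (↑(W.map (C : F →+* F[X])).Δ'⁻¹ : F[X]) *
        WeierstrassCurve.addSubMapCoeff (W.map (C : F →+* F[X])) (i, j))) ?_ ?_
  · intro j
    exact natDegree_mvAeval_le _ 2 (WeierstrassCurve.isHomogeneous_addSubMap W j) T _ hD
  · intro i j
    rw [map_mul, MvPolynomial.eval_C, eval_addSubMapCoeff_map_C]
    have hu : (↑(W.map (C : F →+* F[X])).Δ'⁻¹ : F[X]).natDegree = 0 :=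
      natDegree_eq_zero_of_isUnit (Units.isUnit _)
    calc _ ≤ (↑(W.map (C : F →+* F[X])).Δ'⁻¹ : F[X]).natDegree +
          (MvPolynomial.aeval T (WeierstrassCurve.addSubMapCoeff W (i, j))).natDegree :=
          natDegree_mul_le
      _ ≤ 0 + 2 * maxDeg T := Nat.add_le_add hu.le
          (natDegree_mvAeval_le _ 2 (WeierstrassCurve.isHomogeneous_addSubMapCoeff W (i, j)) T _ hD)
      _ = (4 - 2) * maxDeg T := by norm_num
  · intro i
    have := WeierstrassCurve.addSubMapCoeff_condition (W.map (C : F →+* F[X])) T i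
    simp only [eval_addSubMap_map_C] at this
    exact this

end Fermat.Agent.H40
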