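import Mathlib

/-!
# The generic quadratic extension `k(t)(√f(t))` (helper40, P-S52 / WP-B)

For a field `k` and `a₄ a₆ : k`, `GenField k a₄ a₆ = k(t)[T] / (T² - f(t))`,
`f = t³ + a₄ t + a₆`: the function field of `y² = x³ + a₄ x + a₆`, presented as a quadratic
extension of `RatFunc k`.  We provide the generic root `genY`, the conjugation `genConj`
(`T ↦ -T`) and the decomposition `z = u + v · genY`.
-/

set_option autoImplicit false

namespace Fermat.Agent.H40

open Polynomial

variable (k : Type*) [Field k] (a₄ a₆ : k)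

/-- The cubic `t³ + a₄ t + a₆`. -/
noncomputable def cubicPoly : k[X] := X ^ 3 + C a₄ * X + C a₆

lemma cubicPoly_natDegree : (cubicPoly k a₄ a₆).natDegree = 3 := by
  unfold cubicPoly
  compute_degree!

lemma cubicPoly_ne_zero : cubicPoly k a₄ a₆ ≠ 0 := by
  intro h
  have := cubicPoly_natDegree k a₄ a₆
  rw [h, natDegree_zero] at this
  exact absurd this (by norm_num)

/-- `f(t)` as an element of `k(t)`. -/
noncomputable def cubicK : RatFunc k := algebraMap k[X] (RatFunc k) (cubicPoly k a₄ a₆)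

lemma cubicK_eq : cubicK k a₄ a₆ =
    (RatFunc.X : RatFunc k) ^ 3 + RatFunc.C a₄ * RatFunc.X + RatFunc.C a₆ := by
  simp [cubicK, cubicPoly, RatFunc.algebraMap_X, RatFunc.algebraMap_C]

lemma cubicK_intDegree : (cubicK k a₄ a₆).intDegree = 3 := by
  rw [cubicK, RatFunc.intDegree_polynomial, cubicPoly_natDegree]
  rfl

/-- The polynomial `T² - f(t)` over `k(t)`. -/
noncomputable def genPoly : (RatFunc k)[X] := X ^ 2 - C (cubicK k a₄ a₆)

lemma genPoly_monic : (genPoly k a₄ a₆).Monic := by
  unfold genPoly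
  monicity!

lemma genPoly_natDegree : (genPoly k a₄ a₆).natDegree = 2 := by
  unfold genPoly
  compute_degree!

lemma not_sq_cubicK (r : RatFunc k) : r ^ 2 ≠ cubicK k a₄ a₆ := by
  intro h
  have h3 := cubicK_intDegree k a₄ a₆
  rw [← h] at h3
  have hr : r ≠ 0 := by
    rintro rfl
    simp at h3
  rw [pow_two, RatFunc.intDegree_mul hr hr] at h3
  omega

lemma genPoly_irreducible : Irreducible (genPoly k a₄ a₆) := by
  apply irreducible_of_degree_le_three_of_not_isRoot
  · rw [genPoly_natDegree]; decide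
  · intro r hr
    apply not_sq_cubicK k a₄ a₆ r
    have : (genPoly k a₄ a₆).eval r = 0 := hr
    simp only [genPoly, eval_sub, eval_pow, eval_X, eval_C] at this
    exact sub_eq_zero.mp this

instance genPoly_fact : Fact (Irreducible (genPoly k a₄ a₆)) := ⟨genPoly_irreducible k a₄ a₆⟩

/-- The generic quadratic extension `k(t)(√f)`. -/
abbrev GenField : Type _ := AdjoinRoot (genPoly k a₄ a₆)

/-- The generic `y`-coordinate `√f`. -/
noncomputable def genY : GenField k a₄ a₆ := AdjoinRoot.root (genPoly k a₄ a₆)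

/-- The generic `x`-coordinate `t`. -/
noncomputable def genX : GenField k a₄ a₆ := algebraMap (RatFunc k) _ RatFunc.X

lemma genY_sq : genY k a₄ a₆ ^ 2 = algebraMap (RatFunc k) _ (cubicK k a₄ a₆) := by
  have h := AdjoinRoot.eval₂_root (genPoly k a₄ a₆)
  rw [genPoly, eval₂_sub, eval₂_pow, eval₂_X, eval₂_C] at h
  rw [AdjoinRoot.algebraMap_eq]
  exact sub_eq_zero.mp h

lemma genY_sq' : genY k a₄ a₆ ^ 2 =
    genX k a₄ a₆ ^ 3 + algebraMap k _ a₄ * genX k a₄ a₆ + algebraMap k _ a₆ := by
  rw [genY_sq, cubicK_eq, genX]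
  simp only [map_add, map_mul, map_pow]
  rw [← RatFunc.algebraMap_eq_C, ← IsScalarTower.algebraMap_apply,
    ← IsScalarTower.algebraMap_apply]

lemma algebraMap_genField_injective :
    Function.Injective (algebraMap (RatFunc k) (GenField k a₄ a₆)) :=
  (algebraMap (RatFunc k) (GenField k a₄ a₆)).injective

/-- Every element of the generic field is `u + v √f` with `u v ∈ k(t)`. -/
lemma exists_eq_add_mul_genY (z : GenField k a₄ a₆) :
    ∃ u v : RatFunc k, z = algebraMap _ _ u + algebraMap _ _ v * genY k a₄ a₆ := by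
  obtain ⟨p, rfl⟩ := AdjoinRoot.mk_surjective z
  have hmod : AdjoinRoot.mk (genPoly k a₄ a₆) p =
      AdjoinRoot.mk (genPoly k a₄ a₆) (p %ₘ genPoly k a₄ a₆) := by
    rw [AdjoinRoot.mk_eq_mk]
    refine ⟨p /ₘ genPoly k a₄ a₆, ?_⟩
    have := modByMonic_add_div p (genPoly k a₄ a₆)
    linear_combination -this
  have hdeg : (p %ₘ genPoly k a₄ a₆).natDegree < 2 := by
    have := natDegree_modByMonic_lt p (genPoly_monic k a₄ a₆)
      (by intro h; have := genPoly_natDegree k a₄ a₆; rw [h, natDegree_one] at this; omega)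
    rwa [genPoly_natDegree] at this
  set r := p %ₘ genPoly k a₄ a₆ with hr
  refine ⟨r.coeff 0, r.coeff 1, ?_⟩
  rw [hmod]
  have hr2 : r = C (r.coeff 0) + C (r.coeff 1) * X := by
    ext n
    rcases n with _ | _ | n
    · simp
    · simp
    · simp only [coeff_add, coeff_C_mul, coeff_X, coeff_C]
      rw [coeff_eq_zero_of_natDegree_lt (by omega)]
      simp
  conv_lhs => rw [hr2]
  simp only [map_add, map_mul, AdjoinRoot.mk_C, AdjoinRoot.mk_X, AdjoinRoot.algebraMap_eq]
  rfl

/-- The conjugation `√f ↦ -√f` of the generic field, as a `k(t)`-algebra map. -/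
noncomputable def genConj : GenField k a₄ a₆ →ₐ[RatFunc k] GenField k a₄ a₆ :=
  AdjoinRoot.liftAlgHom (genPoly k a₄ a₆) (Algebra.ofId _ _) (-genY k a₄ a₆) (by
    simp only [genPoly, eval₂_sub, eval₂_pow, eval₂_X, eval₂_C, neg_sq]
    rw [genY_sq]
    simp)

@[simp]
lemma genConj_genY : genConj k a₄ a₆ (genY k a₄ a₆) = -genY k a₄ a₆ := by
  simp [genConj, genY]

lemma genConj_algebraMap (u : RatFunc k) :
    genConj k a₄ a₆ (algebraMap _ _ u) = algebraMap _ _ u :=
  (genConj k a₄ a₆).commutes u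

lemma genY_ne_zero : genY k a₄ a₆ ≠ 0 := by
  intro h
  have := genY_sq k a₄ a₆
  rw [h, zero_pow two_ne_zero] at this
  have h2 : cubicK k a₄ a₆ = 0 :=
    (algebraMap_genField_injective k a₄ a₆) (by rw [← this, map_zero])
  have h3 := cubicK_intDegree k a₄ a₆
  rw [h2] at h3
  simp at h3

/-- `1, √f` are linearly independent over `k(t)`. -/
lemma add_mul_genY_eq_zero {u v : RatFunc k}
    (h : algebraMap _ (GenField k a₄ a₆) u + algebraMap _ _ v * genY k a₄ a₆ = 0) :
    u = 0 ∧ v = 0 := by
  by_cases hv : v = 0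
  · subst hv
    simp only [map_zero, zero_mul, add_zero] at h
    exact ⟨(algebraMap_genField_injective k a₄ a₆) (by rw [h, map_zero]), rfl⟩
  · exfalso
    have hv' : algebraMap _ (GenField k a₄ a₆) v ≠ 0 := fun h0 =>
      hv ((algebraMap_genField_injective k a₄ a₆) (by rw [h0, map_zero]))
    have hy : genY k a₄ a₆ = algebraMap _ _ (-u / v) := by
      rw [map_div₀, map_neg, eq_div_iff hv']
      linear_combination h
    have := genY_sq k a₄ a₆
    rw [hy, ← map_pow] at this
    exact not_sq_cubicK k a₄ a₆ _ ((algebraMap_genField_injective k a₄ a₆) this)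

variable {k a₄ a₆}

/-- Fixed points of the conjugation lie in `k(t)` (characteristic `≠ 2`). -/
lemma exists_of_genConj_eq (h2 : (2 : k) ≠ 0) {z : GenField k a₄ a₆}
    (hz : genConj k a₄ a₆ z = z) : ∃ u : RatFunc k, z = algebraMap _ _ u := by
  obtain ⟨u, v, rfl⟩ := exists_eq_add_mul_genY k a₄ a₆ z
  refine ⟨u, ?_⟩
  rw [map_add, map_mul, genConj_algebraMap, genConj_algebraMap, genConj_genY] at hz
  have h0 : algebraMap _ (GenField k a₄ a₆) (0 : RatFunc k) +
      algebraMap _ _ (2 * v) * genY k a₄ a₆ = 0 := by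
    rw [map_zero, map_mul, map_ofNat]
    linear_combination -hz
  have := (add_mul_genY_eq_zero k a₄ a₆ h0).2
  have h2' : (2 : RatFunc k) ≠ 0 := by
    intro h
    apply h2
    have : (RatFunc.C (2 : k) : RatFunc k) = 0 := by rw [map_ofNat]; exact h
    exact (RatFunc.C_injective) (by rw [this, map_zero])
  have hv : v = 0 := by
    rcases mul_eq_zero.mp this with h | h
    · exact absurd h h2'
    · exact h
  rw [hv, map_zero, zero_mul, add_zero]

/-- Anti-fixed points of the conjugation lie in `k(t) · √f` (characteristic `≠ 2`). -/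
lemma exists_of_genConj_eq_neg (h2 : (2 : k) ≠ 0) {z : GenField k a₄ a₆}
    (hz : genConj k a₄ a₆ z = -z) : ∃ v : RatFunc k, z = algebraMap _ _ v * genY k a₄ a₆ := by
  obtain ⟨u, v, rfl⟩ := exists_eq_add_mul_genY k a₄ a₆ z
  refine ⟨v, ?_⟩
  rw [map_add, map_mul, genConj_algebraMap, genConj_algebraMap, genConj_genY] at hz
  have h0 : algebraMap _ (GenField k a₄ a₆) (2 * u) +
      algebraMap _ _ (0 : RatFunc k) * genY k a₄ a₆ = 0 := by
    rw [map_zero, map_mul, map_ofNat]
    linear_combination hz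
  have := (add_mul_genY_eq_zero k a₄ a₆ h0).1
  have h2' : (2 : RatFunc k) ≠ 0 := by
    intro h
    apply h2
    have : (RatFunc.C (2 : k) : RatFunc k) = 0 := by rw [map_ofNat]; exact h
    exact (RatFunc.C_injective) (by rw [this, map_zero])
  have hu : u = 0 := by
    rcases mul_eq_zero.mp this with h | h
    · exact absurd h h2'
    · exact h
  rw [hu, map_zero, zero_add]

end Fermat.Agent.H40
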