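import Mathlib
import Fermat.Agent.H70.AddSub

/-!
# The add-sub map does what it claims (helper40, P-S52 / WP-B)

For all points `P Q` of an elliptic curve over a field, the vector
`addSubMap (sym2x P Q)` is a nonzero multiple of `sym2x (P + Q) (P - Q)`
(all degenerate cases included).
-/

set_option autoImplicit false

namespace Fermat.Agent.H40

open WeierstrassCurve WeierstrassCurve.Affine Fermat.Agent.H38 Fermat.Agent.H70

variable {L : Type*} [Field L]

lemma eval_addSubMap_zero (W : WeierstrassCurve L) (s t u : L) :
    MvPolynomial.eval ![s, t, u] (W.addSubMap 0) =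
      s ^ 2 - W.b₄ * s * u - W.b₆ * t * u - W.b₈ * u ^ 2 := by
  simp [WeierstrassCurve.addSubMap]

lemma eval_addSubMap_one (W : WeierstrassCurve L) (s t u : L) :
    MvPolynomial.eval ![s, t, u] (W.addSubMap 1) =
      2 * t * s + W.b₂ * s * u + W.b₄ * t * u + W.b₆ * u ^ 2 := by
  simp [WeierstrassCurve.addSubMap]

lemma eval_addSubMap_two (W : WeierstrassCurve L) (s t u : L) :
    MvPolynomial.eval ![s, t, u] (W.addSubMap 2) = t ^ 2 - 4 * s * u := by
  simp [WeierstrassCurve.addSubMap]

variable [DecidableEq L]

/-- The add-sub map on `sym2x`, with an explicit nonzero factor. -/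
theorem addSubMap_sym2x (W : WeierstrassCurve L) [W.IsElliptic] (P Q : W.toAffine.Point) :
    ∃ c : L, c ≠ 0 ∧ ∀ i, MvPolynomial.eval (P.sym2x Q) (W.addSubMap i) =
      c * (P + Q).sym2x (P - Q) i := by
  have hΔ : W.Δ ≠ 0 := W.isUnit_Δ.ne_zero
  rcases P with _ | ⟨x₁, y₁, h₁⟩
  · -- P = 0
    rcases Q with _ | ⟨x₂, y₂, h₂⟩
    · refine ⟨1, one_ne_zero, fun i => ?_⟩
      have e1 : (Point.zero : W.toAffine.Point) + Point.zero = 0 := add_zero _
      have e2 : (Point.zero : W.toAffine.Point) - Point.zero = 0 := sub_zero _
      rw [e1, e2, show (Point.zero : W.toAffine.Point) = 0 from rfl, Point.sym2x_zero_zero]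
      fin_cases i
      · simp [eval_addSubMap_zero]
      · simp [eval_addSubMap_one]
      · simp [eval_addSubMap_two]
    · refine ⟨1, one_ne_zero, fun i => ?_⟩
      have e1 : (Point.zero : W.toAffine.Point) + Point.some x₂ y₂ h₂ = Point.some x₂ y₂ h₂ :=
        zero_add _
      have e2 : (Point.zero : W.toAffine.Point) - Point.some x₂ y₂ h₂ = -Point.some x₂ y₂ h₂ :=
        zero_sub _
      rw [e1, e2, Point.sym2x_neg_right, show (Point.zero : W.toAffine.Point) = 0 from rfl,
        Point.sym2x_zero_some, Point.sym2x_some_some]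
      fin_cases i
      · simp [eval_addSubMap_zero]; ring
      · simp [eval_addSubMap_one]; ring
      · simp [eval_addSubMap_two]
  · rcases Q with _ | ⟨x₂, y₂, h₂⟩
    · -- Q = 0
      refine ⟨1, one_ne_zero, fun i => ?_⟩
      have e1 : Point.some x₁ y₁ h₁ + (Point.zero : W.toAffine.Point) = Point.some x₁ y₁ h₁ :=
        add_zero _
      have e2 : Point.some x₁ y₁ h₁ - (Point.zero : W.toAffine.Point) = Point.some x₁ y₁ h₁ :=
        sub_zero _
      rw [e1, e2, show (Point.zero : W.toAffine.Point) = 0 from rfl,
        Point.sym2x_some_zero, Point.sym2x_some_some]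
      fin_cases i
      · simp [eval_addSubMap_zero]; ring
      · simp [eval_addSubMap_one]; ring
      · simp [eval_addSubMap_two]
    · -- both affine
      set P : W.toAffine.Point := Point.some x₁ y₁ h₁ with hP
      set Q : W.toAffine.Point := Point.some x₂ y₂ h₂ with hQ
      have hP0 : P ≠ 0 := Point.some_ne_zero h₁
      have hQ0 : Q ≠ 0 := Point.some_ne_zero h₂
      by_cases hx : x₁ = x₂
      · -- Q = ± P
        subst hx
        have hsym : P.sym2x Q = ![x₁ * x₁, x₁ + x₁, 1] := Point.sym2x_some_some h₁ h₂
        have hpm : (P + Q).sym2x (P - Q) = ((2 : ℕ) • P).sym2x 0 := by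
          rcases eq_or_eq_neg_of_xc_eq W hQ0 hP0 (by simp [hP, hQ]) with h | h
          · rw [h, sub_self, two_nsmul]
          · rw [h, add_neg_cancel, sub_neg_eq_add, Point.sym2x_comm, two_nsmul]
        rw [hsym, hpm]
        by_cases h2 : (2 : ℕ) • P = 0
        · have hden : dblDen W x₁ = 0 := by
            have := (two_nsmul_eq_zero_iff W hP0).mp h2
            simpa [hP] using this
          have hnum : dblNum W x₁ ≠ 0 := dblNum_ne_zero_of_dblDen_eq_zero W hΔ hden
          refine ⟨dblNum W x₁, hnum, fun i => ?_⟩
          rw [h2, Point.sym2x_zero_zero]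
          simp only [dblDen] at hden
          fin_cases i
          · simp [eval_addSubMap_zero, dblNum]; ring
          · simp [eval_addSubMap_one]; linear_combination hden
          · simp [eval_addSubMap_two]; ring
        · have hden : dblDen W x₁ ≠ 0 := by
            intro h
            apply h2
            apply (two_nsmul_eq_zero_iff W hP0).mpr
            simpa [hP] using h
          have hdup := xc_two_nsmul W hP0 h2
          obtain ⟨x', y', h', h2P⟩ := exists_some_of_ne_zero W h2
          rw [h2P] at hdup ⊢
          simp only [hP, xc_some] at hdup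
          refine ⟨dblDen W x₁, hden, fun i => ?_⟩
          rw [Point.sym2x_some_zero]
          simp only [dblNum] at hdup
          fin_cases i
          · simp [eval_addSubMap_zero]; linear_combination -hdup
          · simp [eval_addSubMap_one, dblDen]; ring
          · simp [eval_addSubMap_two]; ring
      · -- generic case
        have hne : xc W Q ≠ xc W P := by simpa [hP, hQ] using Ne.symm hx
        have hs := xc_add_add_xc_sub W hQ0 hP0 hne
        have hp := xc_add_mul_xc_sub W hQ0 hP0 hne
        have hadd : P + Q ≠ 0 := xc_ne_imp_add_ne_zero W hne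
        have hsub : P - Q ≠ 0 := xc_ne_imp_sub_ne_zero W hne
        obtain ⟨x₃, y₃, h₃, e₃⟩ := exists_some_of_ne_zero W hadd
        obtain ⟨x₄, y₄, h₄, e₄⟩ := exists_some_of_ne_zero W hsub
        rw [e₃, e₄] at hs hp
        simp only [hP, hQ, xc_some, spSum, spProd] at hs hp
        have hsym : P.sym2x Q = ![x₁ * x₂, x₁ + x₂, 1] := Point.sym2x_some_some h₁ h₂
        refine ⟨(x₁ - x₂) ^ 2, pow_ne_zero _ (sub_ne_zero.mpr hx), fun i => ?_⟩
        rw [hsym, e₃, e₄, Point.sym2x_some_some]
        fin_cases i
        · simp [eval_addSubMap_zero]; linear_combination -hp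
        · simp [eval_addSubMap_one]; linear_combination -hs
        · simp [eval_addSubMap_two]; ring

end Fermat.Agent.H40
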