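import Fermat.Agent.H40.Hasse.AddSubDeg
import Fermat.Agent.H40.Hasse.Sym2

/-!
# The exact parallelogram law for function-field heights (helper40, P-S52 / WP-B)

`W` is an elliptic curve over a field `F` (constant coefficients), `L` is a field containing
`F[X]` via `ι`.  A point `P` of `W(L)` has *`x`-representative* `(n : d)`, `n d : F[X]`
coprime, if `x(P) = ι n / ι d` (`d = 0` for the origin).  Its height is
`md n d = max (deg n) (deg d)`.

`parallelogram_reps`: `h(P + Q) + h(P - Q) = 2 h(P) + 2 h(Q)` whenever all four points have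
`x`-representatives.
-/

set_option autoImplicit false

namespace Fermat.Agent.H40

open WeierstrassCurve WeierstrassCurve.Affine Polynomial

variable {F : Type*} [Field F] (W : WeierstrassCurve F)
variable {L : Type*} [Field L] [Algebra F L]

lemma eval_addSubMap_smul (W' : WeierstrassCurve L) (c : L) (v : Fin 3 → L) (i : Fin 3) :
    MvPolynomial.eval (c • v) (W'.addSubMap i) = c ^ 2 * MvPolynomial.eval v (W'.addSubMap i) := by
  have hv : v = ![v 0, v 1, v 2] := by
    ext j; fin_cases j <;> rfl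
  have hcv : c • v = ![c * v 0, c * v 1, c * v 2] := by
    ext j; fin_cases j <;> simp
  rw [hcv]
  conv_rhs => rw [hv]
  fin_cases i
  · simp only [Fin.zero_eta, eval_addSubMap_zero]; ring
  · simp only [Fin.mk_one, eval_addSubMap_one]; ring
  · simp only [Fin.reduceFinMk, eval_addSubMap_two]; ring

variable (ι : F[X] →ₐ[F] L)

/-- `ι` commutes with the add-sub map (whose coefficients are constants). -/
lemma map_aeval_addSubMap (T : Fin 3 → F[X]) (i : Fin 3) :
    ι (MvPolynomial.aeval T (W.addSubMap i)) =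
      MvPolynomial.eval (fun j => ι (T j)) ((W⁄L).addSubMap i) := by
  rw [show (W⁄L) = W.map (algebraMap F L) from rfl, addSubMap_map, MvPolynomial.eval_map,
    ← MvPolynomial.aeval_def, ← MvPolynomial.comp_aeval_apply]

variable [DecidableEq L]

/-- `(n : d)` represents the `x`-coordinate of `P`. -/
def IsXRep (P : (W⁄L).Point) (n d : F[X]) : Prop :=
  IsCoprime n d ∧ P.xRep 0 * ι d = P.xRep 1 * ι n

variable {W ι}

omit [DecidableEq L] in
lemma IsXRep.exists_scalar (hι : Function.Injective ι) {P : (W⁄L).Point} {n d : F[X]}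
    (h : IsXRep W ι P n d) : ∃ c : L, c ≠ 0 ∧ ι n = c * P.xRep 0 ∧ ι d = c * P.xRep 1 := by
  obtain ⟨hcop, heq⟩ := h
  rcases P with _ | ⟨x, y, hxy⟩
  · rw [show (Point.zero : (W⁄L).Point) = 0 from rfl, Point.xRep_zero] at heq ⊢
    simp only [Matrix.cons_val_zero, Matrix.cons_val_one, one_mul, zero_mul] at heq ⊢
    have hd : d = 0 := hι (by rw [heq, map_zero])
    subst hd
    have hn : n ≠ 0 := by
      rintro rfl
      exact not_isCoprime_zero_zero hcop
    refine ⟨ι n, fun h0 => hn (hι (by rw [h0, map_zero])), by simp, by simp⟩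
  · rw [Point.xRep_some] at heq ⊢
    simp only [Matrix.cons_val_zero, Matrix.cons_val_one, one_mul] at heq ⊢
    have hd : d ≠ 0 := by
      rintro rfl
      rw [map_zero, mul_zero] at heq
      have hn : n = 0 := hι (by rw [← heq, map_zero])
      subst hn
      exact not_isCoprime_zero_zero hcop
    refine ⟨ι d, fun h0 => hd (hι (by rw [h0, map_zero])), ?_, by simp⟩
    rw [← heq, mul_comm]

omit [DecidableEq L] in
lemma IsXRep.sym2 (hι : Function.Injective ι) {P Q : (W⁄L).Point} {n₁ d₁ n₂ d₂ : F[X]}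
    (h₁ : IsXRep W ι P n₁ d₁) (h₂ : IsXRep W ι Q n₂ d₂) :
    ∃ c : L, c ≠ 0 ∧ (fun i => ι (sym2Vec n₁ d₁ n₂ d₂ i)) = c • P.sym2x Q := by
  obtain ⟨c₁, hc₁, hn₁, hd₁⟩ := h₁.exists_scalar hι
  obtain ⟨c₂, hc₂, hn₂, hd₂⟩ := h₂.exists_scalar hι
  refine ⟨c₁ * c₂, mul_ne_zero hc₁ hc₂, ?_⟩
  ext i
  fin_cases i
  · simp [sym2Vec, Point.sym2x, hn₁, hn₂]; ring
  · simp [sym2Vec, Point.sym2x, hn₁, hn₂, hd₁, hd₂]; ring
  · simp [sym2Vec, Point.sym2x, hd₁, hd₂]; ring

/-- **The exact parallelogram law** in terms of `x`-representatives. -/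
theorem parallelogram_reps [W.IsElliptic] (hι : Function.Injective ι) {P Q : (W⁄L).Point}
    {n₁ d₁ n₂ d₂ n₃ d₃ n₄ d₄ : F[X]}
    (h₁ : IsXRep W ι P n₁ d₁) (h₂ : IsXRep W ι Q n₂ d₂)
    (h₃ : IsXRep W ι (P + Q) n₃ d₃) (h₄ : IsXRep W ι (P - Q) n₄ d₄) :
    md n₃ d₃ + md n₄ d₄ = 2 * (md n₁ d₁ + md n₂ d₂) := by
  have : (W⁄L).IsElliptic := inferInstanceAs (W.map (algebraMap F L)).IsElliptic
  set T := sym2Vec n₁ d₁ n₂ d₂ with hT
  set T' := sym2Vec n₃ d₃ n₄ d₄ with hT'
  have hTp : IsPrimVec T := sym2Vec_prim h₁.1 h₂.1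
  have hT'p : IsPrimVec T' := sym2Vec_prim h₃.1 h₄.1
  obtain ⟨hSp, hSdeg⟩ := addSub_prim_maxDeg W hTp
  set S : Fin 3 → F[X] := fun i => MvPolynomial.aeval T (W.addSubMap i) with hS
  obtain ⟨c, hc, hcT⟩ := h₁.sym2 hι h₂
  obtain ⟨c', hc', hcT'⟩ := h₃.sym2 hι h₄
  obtain ⟨e, he, hCe⟩ := addSubMap_sym2x (W⁄L) P Q
  have hιS : ∀ j, ι (S j) = c ^ 2 * e * (P + Q).sym2x (P - Q) j := by
    intro j
    rw [hS]
    simp only
    rw [map_aeval_addSubMap, hcT, eval_addSubMap_smul, hCe j]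
    ring
  have hιT' : ∀ i, ι (T' i) = c' * (P + Q).sym2x (P - Q) i := fun i => by
    have := congrFun hcT' i
    simpa using this
  have hprop : ∀ i j, T' i * S j = T' j * S i := by
    intro i j
    apply hι
    rw [map_mul, map_mul, hιS, hιS, hιT', hιT']
    ring
  have := maxDeg_eq_of_proportional hT'p hSp hprop
  rw [hSdeg, hT, hT', sym2Vec_maxDeg h₁.1 h₂.1, sym2Vec_maxDeg h₃.1 h₄.1] at this
  exact this

end Fermat.Agent.H40
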