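import Fermat.Agent.H40.Hasse.Height

/-!
# The height function attached to `x`-representatives (helper40, P-S52 / WP-B)

`hgt W ι P` is `md n d` for any `x`-representative `(n : d)` of `P` (and `0` if there is none).
-/

set_option autoImplicit false

namespace Fermat.Agent.H40

open WeierstrassCurve WeierstrassCurve.Affine Polynomial

variable {F : Type*} [Field F] (W : WeierstrassCurve F)
variable {L : Type*} [Field L] [Algebra F L] [DecidableEq L]
variable (ι : F[X] →ₐ[F] L)

lemma isPrimVec_pair {n d : F[X]} (h : IsCoprime n d) : IsPrimVec ![n, d] := by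
  obtain ⟨a, b, hab⟩ := h
  exact ⟨![a, b], by simpa [Fin.sum_univ_two] using hab⟩

lemma maxDeg_pair (n d : F[X]) : maxDeg ![n, d] = md n d := by
  apply le_antisymm
  · apply maxDeg_le
    intro i
    fin_cases i
    · exact natDegree_le_md_left n d
    · exact natDegree_le_md_right n d
  · exact max_le (natDegree_le_maxDeg ![n, d] 0) (natDegree_le_maxDeg ![n, d] 1)

variable {W ι}

omit [DecidableEq L] in
/-- Two `x`-representatives of the same point have the same height. -/
lemma IsXRep.md_eq (hι : Function.Injective ι) {P : (W⁄L).Point} {n d n' d' : F[X]}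
    (h : IsXRep W ι P n d) (h' : IsXRep W ι P n' d') : md n d = md n' d' := by
  obtain ⟨c, hc, hn, hd⟩ := h.exists_scalar hι
  obtain ⟨c', hc', hn', hd'⟩ := h'.exists_scalar hι
  rw [← maxDeg_pair, ← maxDeg_pair]
  apply maxDeg_eq_of_proportional (isPrimVec_pair h.1) (isPrimVec_pair h'.1)
  intro i j
  apply hι
  fin_cases i <;> fin_cases j <;>
    simp only [Fin.zero_eta, Fin.mk_one, Matrix.cons_val_zero, Matrix.cons_val_one, map_mul,
      hn, hd, hn', hd'] <;> ring

variable (W ι)

open scoped Classical in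
/-- The height of a point: `md n d` for an `x`-representative `(n : d)`. -/
noncomputable def hgt (P : (W⁄L).Point) : ℕ :=
  if h : ∃ n d, IsXRep W ι P n d then md h.choose h.choose_spec.choose else 0

variable {W ι}

omit [DecidableEq L] in
lemma IsXRep.hgt_eq (hι : Function.Injective ι) {P : (W⁄L).Point} {n d : F[X]}
    (h : IsXRep W ι P n d) : hgt W ι P = md n d := by
  have hex : ∃ n d, IsXRep W ι P n d := ⟨n, d, h⟩
  rw [hgt, dif_pos hex]
  exact IsXRep.md_eq hι hex.choose_spec.choose_spec h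

omit [DecidableEq L] in
lemma isXRep_zero : IsXRep W ι (0 : (W⁄L).Point) 1 0 := by
  refine ⟨isCoprime_one_left, ?_⟩
  rw [Point.xRep_zero]
  simp

lemma hgt_zero (hι : Function.Injective ι) : hgt W ι (0 : (W⁄L).Point) = 0 := by
  rw [(isXRep_zero (W := W) (ι := ι)).hgt_eq hι]
  simp [md]

omit [DecidableEq L] in
lemma IsXRep.neg {P : (W⁄L).Point} {n d : F[X]} (h : IsXRep W ι P n d) :
    IsXRep W ι (-P) n d := by
  refine ⟨h.1, ?_⟩
  rw [Point.xRep_neg]
  exact h.2

/-- The parallelogram law for `hgt`, for points having `x`-representatives. -/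
theorem hgt_parallelogram [W.IsElliptic] (hι : Function.Injective ι) {P Q : (W⁄L).Point}
    (hP : ∃ n d, IsXRep W ι P n d) (hQ : ∃ n d, IsXRep W ι Q n d)
    (hPQ : ∃ n d, IsXRep W ι (P + Q) n d) (hPQ' : ∃ n d, IsXRep W ι (P - Q) n d) :
    hgt W ι (P + Q) + hgt W ι (P - Q) = 2 * hgt W ι P + 2 * hgt W ι Q := by
  obtain ⟨n₁, d₁, h₁⟩ := hP
  obtain ⟨n₂, d₂, h₂⟩ := hQ
  obtain ⟨n₃, d₃, h₃⟩ := hPQ
  obtain ⟨n₄, d₄, h₄⟩ := hPQ'
  rw [h₁.hgt_eq hι, h₂.hgt_eq hι, h₃.hgt_eq hι, h₄.hgt_eq hι,
    parallelogram_reps hι h₁ h₂ h₃ h₄]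
  ring

end Fermat.Agent.H40
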