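import Mathlib

/-!
# Primitive polynomial vectors and exact degree formulas (helper40, P-S52 / WP-B)

Pure polynomial algebra over a field `F`:

* `maxDeg T` : the maximum of the degrees of the entries of a vector `T : ι → F[X]`;
* `IsPrimVec T` : the entries of `T` generate the unit ideal;
* `maxDeg_eq_of_proportional` : two primitive vectors with vanishing `2 × 2` minors have the
  same `maxDeg`;
* `certificate_lemma` : if `S` is obtained from a primitive vector `T` by forms of degree `m`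
  and there are "Nullstellensatz certificates" `∑ j, G i j * S j = T i ^ e`, then `S` is
  primitive and `maxDeg S = m * maxDeg T`;
* `sym2_prim`, `sym2_maxDeg` : the Gauss lemma for the product of two linear forms.
-/

set_option autoImplicit false

namespace Fermat.Agent.H40

open Polynomial

variable {F : Type*} [Field F]

section Vec

variable {ι : Type*} [Fintype ι]

/-- The maximal degree of the entries of a polynomial vector. -/
noncomputable def maxDeg (T : ι → F[X]) : ℕ := Finset.univ.sup fun i => (T i).natDegree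

lemma natDegree_le_maxDeg (T : ι → F[X]) (i : ι) : (T i).natDegree ≤ maxDeg T :=
  Finset.le_sup (f := fun i => (T i).natDegree) (Finset.mem_univ i)

lemma maxDeg_le {T : ι → F[X]} {D : ℕ} (h : ∀ i, (T i).natDegree ≤ D) : maxDeg T ≤ D :=
  Finset.sup_le fun i _ => h i

lemma exists_natDegree_eq_maxDeg [Nonempty ι] (T : ι → F[X]) :
    ∃ i, (T i).natDegree = maxDeg T := by
  obtain ⟨i, -, hi⟩ := Finset.exists_mem_eq_sup Finset.univ Finset.univ_nonempty
    (fun i => (T i).natDegree)
  exact ⟨i, hi.symm⟩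

/-- A polynomial vector is primitive if its entries generate the unit ideal. -/
def IsPrimVec (T : ι → F[X]) : Prop := ∃ c : ι → F[X], ∑ i, c i * T i = 1

lemma IsPrimVec.isUnit_of_dvd {T : ι → F[X]} (hT : IsPrimVec T) {g : F[X]}
    (hg : ∀ i, g ∣ T i) : IsUnit g := by
  obtain ⟨c, hc⟩ := hT
  apply isUnit_of_dvd_one
  rw [← hc]
  exact Finset.dvd_sum fun i _ => Dvd.dvd.mul_left (hg i) _

/-- Two primitive vectors which are proportional (vanishing `2 × 2` minors) differ by a unit. -/
lemma IsPrimVec.exists_unit_of_proportional {T T' : ι → F[X]} (hT : IsPrimVec T)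
    (hT' : IsPrimVec T') (h : ∀ i j, T i * T' j = T j * T' i) :
    ∃ u : F[X], IsUnit u ∧ ∀ i, T' i = u * T i := by
  obtain ⟨c, hc⟩ := hT
  obtain ⟨c', hc'⟩ := hT'
  set u := ∑ j, c j * T' j with hu
  set u' := ∑ j, c' j * T j with hu'
  have h1 : ∀ i, T' i = u * T i := by
    intro i
    calc T' i = (∑ j, c j * T j) * T' i := by rw [hc, one_mul]
      _ = ∑ j, c j * (T j * T' i) := by rw [Finset.sum_mul]; simp only [mul_assoc]
      _ = ∑ j, c j * (T i * T' j) := by simp only [h i]
      _ = u * T i := by rw [hu, Finset.sum_mul]; refine Finset.sum_congr rfl fun j _ => by ring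
  have h2 : ∀ i, T i = u' * T' i := by
    intro i
    calc T i = (∑ j, c' j * T' j) * T i := by rw [hc', one_mul]
      _ = ∑ j, c' j * (T' j * T i) := by rw [Finset.sum_mul]; simp only [mul_assoc]
      _ = ∑ j, c' j * (T j * T' i) := by
          refine Finset.sum_congr rfl fun j _ => ?_
          rw [mul_comm (T' j), ← h j i, mul_comm]
      _ = u' * T' i := by rw [hu', Finset.sum_mul]; refine Finset.sum_congr rfl fun j _ => by ring
  refine ⟨u, ?_, h1⟩
  have h3 : u' * u = 1 := by
    have : ∀ i, (u' * u - 1) * T i = 0 := by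
      intro i
      have := h2 i
      rw [h1 i] at this
      linear_combination -this
    calc u' * u = (u' * u - 1) * (∑ i, c i * T i) + 1 := by rw [hc]; ring
      _ = 1 := by
        rw [Finset.mul_sum]
        rw [Finset.sum_eq_zero, zero_add]
        intro i _
        rw [mul_left_comm, this i, mul_zero]
  exact IsUnit.of_mul_eq_one u' (by rw [mul_comm]; exact h3)

lemma maxDeg_eq_of_proportional {T T' : ι → F[X]} (hT : IsPrimVec T)
    (hT' : IsPrimVec T') (h : ∀ i j, T i * T' j = T j * T' i) : maxDeg T = maxDeg T' := by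
  obtain ⟨u, hu, hTT'⟩ := hT.exists_unit_of_proportional hT' h
  unfold maxDeg
  congr 1
  funext i
  rw [hTT' i]
  obtain ⟨c, hc0, rfl⟩ : ∃ c : F, c ≠ 0 ∧ C c = u := by
    obtain ⟨c, hc, rfl⟩ := Polynomial.isUnit_iff.mp hu
    exact ⟨c, hc.ne_zero, rfl⟩
  rw [natDegree_C_mul hc0]

lemma isPrimVec_iff_span {T : ι → F[X]} :
    IsPrimVec T ↔ Ideal.span (Set.range T) = ⊤ := by
  rw [Ideal.eq_top_iff_one, Ideal.mem_span_range_iff_exists_fun]
  rfl

/-- **Certificate lemma.** If `S` has entries of degree `≤ m * maxDeg T` and for every `i`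
a combination of the `S j` with coefficients of degree `≤ (e - m) * maxDeg T` equals `T i ^ e`,
then `S` is primitive of `maxDeg` exactly `m * maxDeg T`. -/
lemma certificate_lemma {κ : Type*} [Fintype κ] [Nonempty ι] {T : ι → F[X]} {S : κ → F[X]}
    (hT : IsPrimVec T) (m e : ℕ) (hme : m ≤ e)
    (hS : ∀ j, (S j).natDegree ≤ m * maxDeg T)
    (G : ι → κ → F[X]) (hG : ∀ i j, (G i j).natDegree ≤ (e - m) * maxDeg T)
    (hcert : ∀ i, ∑ j, G i j * S j = T i ^ e) :
    IsPrimVec S ∧ maxDeg S = m * maxDeg T := by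
  constructor
  · rw [isPrimVec_iff_span] at hT ⊢
    have h1 := Ideal.span_pow_eq_top _ hT e
    rw [eq_top_iff, ← h1, Ideal.span_le]
    rintro _ ⟨_, ⟨i, rfl⟩, rfl⟩
    simp only
    rw [← hcert i]
    refine Ideal.sum_mem _ fun j _ => Ideal.mul_mem_left _ _ (Ideal.subset_span ⟨j, rfl⟩)
  · apply le_antisymm (maxDeg_le hS)
    obtain ⟨i₀, hi₀⟩ := exists_natDegree_eq_maxDeg T
    have h1 : (T i₀ ^ e).natDegree = e * maxDeg T := by
      rw [natDegree_pow, hi₀]
    have h2 : (∑ j, G i₀ j * S j).natDegree ≤ (e - m) * maxDeg T + maxDeg S := by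
      apply natDegree_sum_le_of_forall_le
      intro j _
      calc (G i₀ j * S j).natDegree ≤ (G i₀ j).natDegree + (S j).natDegree := natDegree_mul_le
        _ ≤ (e - m) * maxDeg T + maxDeg S :=
          Nat.add_le_add (hG i₀ j) (natDegree_le_maxDeg S j)
    rw [hcert i₀, h1] at h2
    have h3 : e * maxDeg T = (e - m) * maxDeg T + m * maxDeg T := by
      rw [← Nat.add_mul, Nat.sub_add_cancel hme]
    omega

end Vec

/-! ### Pairs and the Gauss lemma for products of linear forms -/

/-- The height of a pair of polynomials. -/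
noncomputable def md (n d : F[X]) : ℕ := max n.natDegree d.natDegree

lemma natDegree_le_md_left (n d : F[X]) : n.natDegree ≤ md n d := le_max_left _ _

lemma natDegree_le_md_right (n d : F[X]) : d.natDegree ≤ md n d := le_max_right _ _

/-- For a coprime pair, one of the two coefficients in degree `md n d` is nonzero. -/
lemma coeff_md_ne_zero {n d : F[X]} (h : IsCoprime n d) :
    n.coeff (md n d) ≠ 0 ∨ d.coeff (md n d) ≠ 0 := by
  by_cases hn : n = 0
  · subst hn
    right
    have hd : d ≠ 0 := by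
      rintro rfl
      exact not_isCoprime_zero_zero h
    have : md (0 : F[X]) d = d.natDegree := by simp [md]
    rw [this]
    exact leadingCoeff_ne_zero.mpr hd
  by_cases hd : d = 0
  · subst hd
    left
    have : md n (0 : F[X]) = n.natDegree := by simp [md]
    rw [this]
    exact leadingCoeff_ne_zero.mpr hn
  rcases le_total n.natDegree d.natDegree with h1 | h1
  · right
    rw [md, max_eq_right h1]
    exact leadingCoeff_ne_zero.mpr hd
  · left
    rw [md, max_eq_left h1]
    exact leadingCoeff_ne_zero.mpr hn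

/-- The coefficient vector of the product `(d₁ X + n₁) (d₂ X + n₂)`. -/
noncomputable def sym2Vec (n₁ d₁ n₂ d₂ : F[X]) : Fin 3 → F[X] :=
  ![n₁ * n₂, n₁ * d₂ + d₁ * n₂, d₁ * d₂]

lemma sym2Vec_prim {n₁ d₁ n₂ d₂ : F[X]} (h₁ : IsCoprime n₁ d₁) (h₂ : IsCoprime n₂ d₂) :
    IsPrimVec (sym2Vec n₁ d₁ n₂ d₂) := by
  obtain ⟨u, v, huv⟩ := (h₁.pow (m := 2) (n := 2))
  obtain ⟨a, b, hab⟩ := h₂
  refine ⟨![u * (a * n₁ - b * d₁), u * b * n₁ + v * a * d₁, v * (b * d₁ - a * n₁)], ?_⟩
  simp only [sym2Vec, Fin.sum_univ_three, Matrix.cons_val_zero, Matrix.cons_val_one,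
    Matrix.cons_val]
  linear_combination (a * n₂ + b * d₂) * huv + hab

lemma sym2Vec_maxDeg {n₁ d₁ n₂ d₂ : F[X]} (h₁ : IsCoprime n₁ d₁) (h₂ : IsCoprime n₂ d₂) :
    maxDeg (sym2Vec n₁ d₁ n₂ d₂) = md n₁ d₁ + md n₂ d₂ := by
  have hn₁ := natDegree_le_md_left n₁ d₁
  have hd₁ := natDegree_le_md_right n₁ d₁
  have hn₂ := natDegree_le_md_left n₂ d₂
  have hd₂ := natDegree_le_md_right n₂ d₂
  apply le_antisymm
  · apply maxDeg_le
    intro i
    fin_cases i
    · exact natDegree_mul_le_of_le hn₁ hn₂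
    · exact natDegree_add_le_of_degree_le (natDegree_mul_le_of_le hn₁ hd₂)
        (natDegree_mul_le_of_le hd₁ hn₂)
    · exact natDegree_mul_le_of_le hd₁ hd₂
  · -- look at the coefficients in degree `M₁ + M₂`
    set M₁ := md n₁ d₁
    set M₂ := md n₂ d₂
    have c0 : (n₁ * n₂).coeff (M₁ + M₂) = n₁.coeff M₁ * n₂.coeff M₂ :=
      coeff_mul_add_eq_of_natDegree_le hn₁ hn₂
    have c1 : (n₁ * d₂ + d₁ * n₂).coeff (M₁ + M₂) =
        n₁.coeff M₁ * d₂.coeff M₂ + d₁.coeff M₁ * n₂.coeff M₂ := by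
      rw [coeff_add, coeff_mul_add_eq_of_natDegree_le hn₁ hd₂,
        coeff_mul_add_eq_of_natDegree_le hd₁ hn₂]
    have c2 : (d₁ * d₂).coeff (M₁ + M₂) = d₁.coeff M₁ * d₂.coeff M₂ :=
      coeff_mul_add_eq_of_natDegree_le hd₁ hd₂
    have key : (n₁ * n₂).coeff (M₁ + M₂) ≠ 0 ∨ (n₁ * d₂ + d₁ * n₂).coeff (M₁ + M₂) ≠ 0 ∨
        (d₁ * d₂).coeff (M₁ + M₂) ≠ 0 := by
      rw [c0, c1, c2]
      by_contra hcon
      simp only [not_or, not_not] at hcon
      obtain ⟨e0, e1, e2⟩ := hcon
      rcases coeff_md_ne_zero h₁ with hα | hβ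
      · -- α₁ ≠ 0, so α₂ = 0, so β₂ ≠ 0, so β₁ = 0, contradiction with e1
        have hα₂ : n₂.coeff M₂ = 0 := (mul_eq_zero.mp e0).resolve_left hα
        have hβ₂ : d₂.coeff M₂ ≠ 0 := (coeff_md_ne_zero h₂).resolve_left (not_not.mpr hα₂)
        rw [hα₂, mul_zero, add_zero] at e1
        exact (mul_ne_zero hα hβ₂) e1
      · have hβ₂ : d₂.coeff M₂ = 0 := (mul_eq_zero.mp e2).resolve_left hβ
        have hα₂ : n₂.coeff M₂ ≠ 0 := (coeff_md_ne_zero h₂).resolve_right (not_not.mpr hβ₂)
        rw [hβ₂, mul_zero, zero_add] at e1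
        exact (mul_ne_zero hβ hα₂) e1
    rcases key with h | h | h
    · exact (le_natDegree_of_ne_zero h).trans (natDegree_le_maxDeg (sym2Vec n₁ d₁ n₂ d₂) 0)
    · exact (le_natDegree_of_ne_zero h).trans (natDegree_le_maxDeg (sym2Vec n₁ d₁ n₂ d₂) 1)
    · exact (le_natDegree_of_ne_zero h).trans (natDegree_le_maxDeg (sym2Vec n₁ d₁ n₂ d₂) 2)

end Fermat.Agent.H40
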